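import Mathlib
import Fermat.Agent.GAL.Model
import Fermat.Agent.Lib.RR.Instances
import Fermat.Agent.S24.Degree
import Fermat.Agent.GAL.Tors.Dict.Degree

set_option autoImplicit false
set_option linter.unusedSectionVars false

/-!
# GAL-TORS / DESC, file IsFF: the modular function fields over `ℚ̄` and `ℂ` are function fields in
the sense of `Lib.RR.IsFF`
-/

noncomputable section

namespace Fermat.Agent.GAL.Desc

open AlgebraicCurve ModularCurve IntermediateField Fermat.Agent.S24

theorem isFF_FF_Kbar (N : ℕ) [NeZero N] : Lib.RR.IsFF Kbar (FF Kbar N) := by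
  have := finiteDimensional_jF N
  exact Lib.RR.isFF_of_transcendental (jF N) (transcendental_jF N)

theorem isFF_FF_Complex (N : ℕ) [NeZero N] : Lib.RR.IsFF ℂ (FF ℂ N) := by
  have := Tors.Dict.finiteDimensional_jF ℂ (RingHom.id ℂ) N
  exact Lib.RR.isFF_of_transcendental (Tors.Dict.jF ℂ N) (Tors.Dict.transcendental_jF ℂ N)

end Fermat.Agent.GAL.Desc
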