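import Mathlib
import Fermat.Agent.GAL.Model
import Fermat.Agent.S24.DegreeAbs

set_option autoImplicit false

/-!
# GAL-TORS / DESC, file BaseChange: the coefficientwise base change `F_K → F_L`

`K → L` a homomorphism of fields of characteristic `0`, `F₀ ⊆ ℚ((q))`,
`F_K = laurentBaseChange K F₀ ⊆ K((q))`, `F_L = laurentBaseChange L F₀ ⊆ L((q))`.

* `bc ι F₀ : F_K →+* F_L`, coefficientwise;
* `mem_baseChange_of_coeffMap_mem` : `F_L ∩ K((q)) = F_K`;
* `exists_span_div` : every element of `F_L` is a quotient of `L`-linear combinations of elements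
  of `F_K`.
-/

noncomputable section

namespace Fermat.Agent.GAL.Desc

open AlgebraicCurve ModularCurve Fermat.Agent.S24.Degree

variable {K L : Type*} [Field K] [Field L] [Algebra ℚ K] [Algebra ℚ L] (ι : K →+* L)
variable (F₀ : IntermediateField ℚ (LaurentSeries ℚ))

theorem coeffMap_coeffEmb_hom (x : LaurentSeries ℚ) :
    coeffMap ι (coeffEmb K x) = coeffEmb L x := by
  rw [coeffEmb, coeffMap_coeffMap]
  exact coeffMap_congr (RingHom.ext fun c => by simp) x

theorem coeffMap_algebraMap_hom (a : K) :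
    coeffMap ι (algebraMap K (LaurentSeries K) a) = algebraMap L (LaurentSeries L) (ι a) := by
  rw [algebraMap_laurentSeries_eq_single, algebraMap_laurentSeries_eq_single, coeffMap_single]

theorem coeffMap_hom_injective : Function.Injective (coeffMap ι) :=
  (coeffMap ι).injective

variable {F₀} in
theorem coeffMap_mem_baseChange {x : LaurentSeries K} (hx : x ∈ laurentBaseChange K F₀) :
    coeffMap ι x ∈ laurentBaseChange L F₀ := by
  rw [mem_laurentBaseChange_iff] at hx
  induction hx using Subfield.closure_induction with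
  | mem y hy =>
      rcases hy with ⟨a, rfl⟩ | ⟨z, hz, rfl⟩
      · rw [coeffMap_algebraMap_hom]
        exact (laurentBaseChange L F₀).algebraMap_mem _
      · rw [coeffMap_coeffEmb_hom]
        exact coeffEmb_mem_laurentBaseChange L hz
  | one => simp
  | add x y _ _ hx hy => simpa using add_mem hx hy
  | neg x _ hx => simpa using neg_mem hx
  | inv x _ hx => simpa using inv_mem hx
  | mul x y _ _ hx hy => simpa using mul_mem hx hy

/-- Base change `F_K → F_L`, coefficientwise. -/
def bc : laurentBaseChange K F₀ →+* laurentBaseChange L F₀ where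
  toFun x := ⟨coeffMap ι (x : LaurentSeries K), coeffMap_mem_baseChange ι x.2⟩
  map_one' := Subtype.ext (map_one (coeffMap ι))
  map_mul' _ _ := Subtype.ext (map_mul (coeffMap ι) _ _)
  map_zero' := Subtype.ext (map_zero (coeffMap ι))
  map_add' _ _ := Subtype.ext (map_add (coeffMap ι) _ _)

@[simp] theorem coe_bc (x : laurentBaseChange K F₀) :
    ((bc ι F₀ x : laurentBaseChange L F₀) : LaurentSeries L)
      = coeffMap ι (x : LaurentSeries K) := rfl

theorem bc_injective : Function.Injective (bc ι F₀) := (bc ι F₀).injective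

theorem bc_algebraMap (a : K) :
    bc ι F₀ (algebraMap K (laurentBaseChange K F₀) a)
      = algebraMap L (laurentBaseChange L F₀) (ι a) :=
  Subtype.ext (coeffMap_algebraMap_hom ι a)

/-- The `L`-span of `F_K` inside `F_L`. -/
def spanBC : Submodule L (laurentBaseChange L F₀) :=
  Submodule.span L (Set.range (bc ι F₀))

theorem BaseChange_one_mem_spanBC : (1 : laurentBaseChange L F₀) ∈ spanBC ι F₀ :=
  Submodule.subset_span ⟨1, map_one _⟩

theorem BaseChange_mul_mem_spanBC {P Q : laurentBaseChange L F₀} (hP : P ∈ spanBC ι F₀)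
    (hQ : Q ∈ spanBC ι F₀) : P * Q ∈ spanBC ι F₀ := by
  have h := Submodule.mul_mem_mul hP hQ
  rw [spanBC, Submodule.span_mul_span] at h
  refine Submodule.span_mono ?_ h
  rintro _ ⟨_, ⟨a, rfl⟩, _, ⟨b, rfl⟩, rfl⟩
  exact ⟨a * b, map_mul _ _ _⟩

theorem BaseChange_exists_of_mem_adjoin {r : LaurentSeries L}
    (hr : r ∈ Algebra.adjoin L (⇑(coeffEmb L) '' (F₀ : Set (LaurentSeries ℚ)))) :
    ∃ P ∈ spanBC ι F₀, (P : LaurentSeries L) = r := by
  induction hr using Algebra.adjoin_induction with
  | mem y hy =>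
      obtain ⟨z, hz, rfl⟩ := hy
      refine ⟨bc ι F₀ ⟨coeffEmb K z, coeffEmb_mem_laurentBaseChange K hz⟩,
        Submodule.subset_span ⟨_, rfl⟩, ?_⟩
      rw [coe_bc]
      exact coeffMap_coeffEmb_hom ι z
  | algebraMap c =>
      refine ⟨c • 1, Submodule.smul_mem _ _ (BaseChange_one_mem_spanBC ι F₀), ?_⟩
      rw [Algebra.smul_def, mul_one]
      rfl
  | add x y _ _ hx hy =>
      obtain ⟨P, hP, rfl⟩ := hx
      obtain ⟨Q, hQ, rfl⟩ := hy
      exact ⟨P + Q, add_mem hP hQ, rfl⟩
  | mul x y _ _ hx hy =>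
      obtain ⟨P, hP, rfl⟩ := hx
      obtain ⟨Q, hQ, rfl⟩ := hy
      exact ⟨P * Q, BaseChange_mul_mem_spanBC ι F₀ hP hQ, rfl⟩

/-- every element of `F_L` is a quotient of two `L`-linear combinations of elements of `F_K`.
(`IntermediateField.mem_adjoin_iff_div`, `Algebra.adjoin_eq_span`; the range of `bc` is closed
under multiplication.) -/
theorem exists_span_div (x : laurentBaseChange L F₀) :
    ∃ P ∈ spanBC ι F₀, ∃ Q ∈ spanBC ι F₀, Q ≠ 0 ∧ x = P / Q := by
  obtain ⟨r, hr, s, hs, hx⟩ := IntermediateField.mem_adjoin_iff_div.mp x.2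
  obtain ⟨P, hP, rfl⟩ := BaseChange_exists_of_mem_adjoin ι F₀ hr
  obtain ⟨Q, hQ, rfl⟩ := BaseChange_exists_of_mem_adjoin ι F₀ hs
  by_cases hQ0 : Q = 0
  · refine ⟨0, zero_mem _, 1, BaseChange_one_mem_spanBC ι F₀, one_ne_zero, ?_⟩
    apply Subtype.ext
    rw [hx, hQ0]
    simp
  · exact ⟨P, hP, Q, hQ, hQ0, Subtype.ext hx⟩

/-- a `K`-linear form `lam` on `L`, applied coefficientwise, maps `spanBC` into `F_K`. -/
theorem coeffAdd_mem_of_mem_spanBC (lam : L →+ K) (hlam : ∀ a c, lam (c * ι a) = lam c * a)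
    {P : laurentBaseChange L F₀} (hP : P ∈ spanBC ι F₀) :
    coeffAdd lam (P : LaurentSeries L) ∈ laurentBaseChange K F₀ := by
  have key : ∀ c : L, coeffAdd lam (algebraMap L (LaurentSeries L) c * (P : LaurentSeries L))
      ∈ laurentBaseChange K F₀ := by
    induction hP using Submodule.span_induction with
    | mem y hy =>
        obtain ⟨x, rfl⟩ := hy
        intro c
        rw [coe_bc, coeffAdd_smul lam hlam]
        exact mul_mem ((laurentBaseChange K F₀).algebraMap_mem _) x.2
    | zero =>
        intro c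
        simp
    | add x y _ _ hx hy =>
        intro c
        have : algebraMap L (LaurentSeries L) c * ((x + y : laurentBaseChange L F₀) : LaurentSeries L)
            = algebraMap L (LaurentSeries L) c * (x : LaurentSeries L)
              + algebraMap L (LaurentSeries L) c * (y : LaurentSeries L) := by
          push_cast
          ring
        rw [this, map_add]
        exact add_mem (hx c) (hy c)
    | smul a x _ hx =>
        intro c
        have : algebraMap L (LaurentSeries L) c * ((a • x : laurentBaseChange L F₀) : LaurentSeries L)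
            = algebraMap L (LaurentSeries L) (c * a) * (x : LaurentSeries L) := by
          rw [Algebra.smul_def, map_mul, mul_assoc]
          rfl
        rw [this]
        exact hx _
  have := key 1
  rwa [map_one, one_mul] at this

/-- `lam_*(Q · ι x) = lam_*(Q) · x`. -/
theorem coeffAdd_mul_coeffMap (lam : L →+ K) (hlam : ∀ a c, lam (c * ι a) = lam c * a)
    (Q : LaurentSeries L) (x : LaurentSeries K) :
    coeffAdd lam (Q * coeffMap ι x) = coeffAdd lam Q * x := by
  ext n
  have h1 : (coeffMap ι x).support ⊆ x.support := by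
    intro m hm
    rw [HahnSeries.mem_support] at hm ⊢
    intro h0
    apply hm
    rw [coeffMap_coeff, h0, map_zero]
  have h2 : (coeffAdd lam Q).support ⊆ Q.support := by
    intro m hm
    rw [HahnSeries.mem_support] at hm ⊢
    intro h0
    apply hm
    show lam (Q.coeff m) = 0
    rw [h0, map_zero]
  rw [HahnSeries.coeff_mul_left' Q.isPWO_support h2]
  show lam ((Q * coeffMap ι x).coeff n) = _
  rw [HahnSeries.coeff_mul_right' x.isPWO_support h1, map_sum]
  refine Finset.sum_congr rfl fun ij _ => ?_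
  rw [coeffMap_coeff, hlam]
  rfl

/-- for `Q ≠ 0` there is a `K`-linear form `lam` with `lam_*(Q) ≠ 0`. -/
theorem exists_coeffAdd_ne_zero {Q : LaurentSeries L} (hQ : Q ≠ 0) :
    ∃ lam : L →+ K, (∀ a c, lam (c * ι a) = lam c * a) ∧ coeffAdd lam Q ≠ 0 := by
  obtain ⟨s, hs⟩ : ∃ s, Q.coeff s ≠ 0 := by
    by_contra hcon
    push_neg at hcon
    exact hQ (HahnSeries.ext (funext hcon))
  obtain ⟨rho, hrho, hrho1⟩ := exists_retraction ι
  refine ⟨rho.comp (AddMonoidHom.mulRight (Q.coeff s)⁻¹), fun a c => ?_, fun h0 => ?_⟩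
  · simp only [AddMonoidHom.comp_apply, AddMonoidHom.mulRight_apply]
    rw [← hrho]
    congr 1
    ring
  · have h1 := congrArg (fun y => HahnSeries.coeff y s) h0
    have h2 : (coeffAdd (rho.comp (AddMonoidHom.mulRight (Q.coeff s)⁻¹)) Q).coeff s
        = rho (Q.coeff s * (Q.coeff s)⁻¹) := rfl
    simp only [h2, mul_inv_cancel₀ hs, hrho1, HahnSeries.coeff_zero] at h1
    exact one_ne_zero h1

variable {F₀} in
/-- **`F_L ∩ K((q)) = F_K`.**  Write `ι x = P / Q`; then `Q · ι x = P`; apply `lam_*` with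
`lam_* Q ≠ 0`: `lam_*(Q) x = lam_*(P)`. -/
theorem mem_baseChange_of_coeffMap_mem {x : LaurentSeries K}
    (hx : coeffMap ι x ∈ laurentBaseChange L F₀) : x ∈ laurentBaseChange K F₀ := by
  obtain ⟨P, hP, Q, hQ, hQ0, hxPQ⟩ := exists_span_div ι F₀ ⟨coeffMap ι x, hx⟩
  have hQ0' : (Q : LaurentSeries L) ≠ 0 := fun h => hQ0 (Subtype.ext h)
  have h1 : (Q : LaurentSeries L) * coeffMap ι x = (P : LaurentSeries L) := by
    have h2 := congrArg (Subtype.val) hxPQ
    have h3 : coeffMap ι x = (P : LaurentSeries L) / (Q : LaurentSeries L) := h2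
    rw [h3, mul_div_cancel₀ _ hQ0']
  obtain ⟨lam, hlam, hne⟩ := exists_coeffAdd_ne_zero ι hQ0'
  have h4 := congrArg (coeffAdd lam) h1
  rw [coeffAdd_mul_coeffMap ι lam hlam] at h4
  have h5 : x = coeffAdd lam (P : LaurentSeries L) / coeffAdd lam (Q : LaurentSeries L) := by
    rw [← h4, mul_div_cancel_left₀ _ hne]
  rw [h5]
  exact div_mem (coeffAdd_mem_of_mem_spanBC ι F₀ lam hlam hP)
    (coeffAdd_mem_of_mem_spanBC ι F₀ lam hlam hQ)

/-- an element of `F_L` all of whose coefficients are in the image of `K` comes from `F_K`. -/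
theorem mem_range_bc_of_coeff (x : laurentBaseChange L F₀)
    (h : ∀ n : ℤ, (x : LaurentSeries L).coeff n ∈ Set.range ι) : x ∈ Set.range (bc ι F₀) := by
  choose f hf using h
  have hsupp : Function.support f = (x : LaurentSeries L).support := by
    ext n
    rw [Function.mem_support, HahnSeries.mem_support, ← hf n, Ne, Ne, map_eq_zero]
  let y : LaurentSeries K := ⟨f, by rw [hsupp]; exact (x : LaurentSeries L).isPWO_support⟩
  have hy : coeffMap ι y = (x : LaurentSeries L) := by
    ext n
    rw [coeffMap_coeff]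
    exact hf n
  have hyF : y ∈ laurentBaseChange K F₀ := by
    apply mem_baseChange_of_coeffMap_mem ι
    rw [hy]
    exact x.2
  exact ⟨⟨y, hyF⟩, Subtype.ext hy⟩

end Fermat.Agent.GAL.Desc
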