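import Mathlib
import Fermat.Agent.GAL.Model
import Fermat.Agent.GAL.FF.General

set_option autoImplicit false

/-!
# GAL-TORS / DESC, leaf DS1: a canonical representative of a Kummer class

`K` algebraically closed, `F/K` a function field (`Lib.RR.IsFF`), `P` a place.  Every class of
`V_m(F)` has a representative `u y^m` which is fixed *up to a constant* by every semilinear
automorphism fixing `P` and the class.

Proof.  `D := div(u)/m` has degree `0`.  Let `n` be minimal with `ℓ(D + nP) > 0` (exists by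
Riemann's inequality `Lib.RR.exists_bound`); then `ℓ(D + nP - P) = 0` (minimality, or negative
degree if `n = 0`), hence `ℓ(D + nP) = 1` (`ell_le_ell_sub_pt_add_one`).  Let `y ≠ 0` span
`L(D + nP)`.  If `g u = u w^m` then for every place `v`:
`m D(g⁻¹ v) = ord_{g⁻¹ v} u = ord_v (g u) = m (D v + ord_v w)`, so
`ord_v (w · g y) = ord_v w + ord_{g⁻¹ v} y ≥ ord_v w - D(g⁻¹ v) - n [g⁻¹ v = P] = - (D + nP) v`,
i.e. `w · g y ∈ L(D + nP) = K y`, `w · g y = c y`, and `g (u y^m) = u (w · g y)^m = c^m u y^m`.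
-/

namespace Fermat.Agent.GAL.Tors.Desc

open AlgebraicCurve Fermat.Agent.Lib.RR Fermat.Agent.GAL.FF.General

/-- For a divisor `D` of degree `0` and a place `P` there is `n` with `ℓ(D + nP) = 1`. -/
theorem exists_ell_add_nsmul_pt_eq_one {K F : Type*} [Field K] [IsAlgClosed K] [Field F]
    [Algebra K F] [IsFF K F] (P : Place K F) (D : Divisor K F) (hD : Divisor.degree D = 0) :
    ∃ n : ℕ, ell (D + n • pt P) = 1 := by
  classical
  have hdeg : ∀ n : ℕ, Divisor.degree (D + n • pt P) = n := by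
    intro n
    rw [map_add, hD, map_nsmul, General_degree_pt]
    simp
  have hex : ∃ n : ℕ, 0 < ell (D + n • pt P) := by
    obtain ⟨γ, hγ⟩ := exists_bound (K := K) (F := F)
    refine ⟨(γ + 1).toNat, ?_⟩
    have h1 := hγ (D + (γ + 1).toNat • pt P)
    rw [hdeg] at h1
    have h2 : γ + 1 ≤ ((γ + 1).toNat : ℤ) := Int.self_le_toNat _
    have h3 : (0 : ℤ) < ell (D + (γ + 1).toNat • pt P) := by omega
    exact_mod_cast h3
  refine ⟨Nat.find hex, ?_⟩
  have hpos := Nat.find_spec hex
  have hmin : ell (D + Nat.find hex • pt P - pt P) = 0 := by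
    rcases Nat.eq_zero_or_pos (Nat.find hex) with h0 | h0
    · apply ell_eq_zero_of_degree_neg
      rw [map_sub, hdeg, General_degree_pt, h0]
      norm_num
    · obtain ⟨k, hk⟩ := Nat.exists_eq_succ_of_ne_zero h0.ne'
      have h1 : ¬ 0 < ell (D + k • pt P) := Nat.find_min hex (by omega)
      have h2 : D + Nat.find hex • pt P - pt P = D + k • pt P := by
        rw [hk, Nat.succ_eq_add_one, add_smul, one_smul]
        abel
      rw [h2]
      omega
  have h3 := ell_le_ell_sub_pt_add_one (D + Nat.find hex • pt P) P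
  omega

theorem exists_semiinvariant {K F : Type*} [Field K] [IsAlgClosed K] [Field F] [Algebra K F]
    [IsFF K F] (m : ℕ) [NeZero m] (P : Place K F) (u : kummerUnits K F m) :
    ∃ y : Fˣ, ∀ g : SemilinearAut K F, g • P = P → g • KV.mk u = KV.mk u →
      ∃ c : K, c ≠ 0 ∧
        g • (((u : Fˣ) : F) * (y : F) ^ m) = algebraMap K F c * (((u : Fˣ) : F) * (y : F) ^ m) := by
  classical
  have hm0 : (m : ℤ) ≠ 0 := by exact_mod_cast NeZero.ne m
  set U : F := ((u : Fˣ) : F) with hU
  have hU0 : U ≠ 0 := (u : Fˣ).ne_zero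
  -- the divisor `div(u)/m`
  let D : Divisor K F := (divOf (K := K) U).mapRange (· / (m : ℤ)) (by simp)
  have hDv : ∀ v : Place K F, (m : ℤ) * D v = v.ord U := by
    intro v
    show (m : ℤ) * ((divOf (K := K) U).mapRange (· / (m : ℤ)) (by simp) v) = _
    rw [Finsupp.mapRange_apply, divOf_apply]
    exact Int.mul_ediv_cancel' (u.2 v)
  have hmD : m • D = divOf (K := K) U := by
    ext v
    rw [Finsupp.smul_apply, divOf_apply, ← hDv v, nsmul_eq_mul]
  have hdegD : Divisor.degree D = 0 := by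
    have h1 : Divisor.degree (m • D) = 0 := by rw [hmD, degree_divOf]
    rw [map_nsmul, nsmul_eq_mul] at h1
    exact (mul_eq_zero.mp h1).resolve_left hm0
  obtain ⟨n, hn⟩ := exists_ell_add_nsmul_pt_eq_one P D hdegD
  set E : Divisor K F := D + n • pt P with hE
  obtain ⟨y₀, hy₀, hy₀E⟩ := ell_pos_iff.mp (show 0 < ell E by omega)
  have hspan : ∀ z ∈ riemannRochSpace E, ∃ c : K, c • y₀ = z := by
    intro z hz
    have h1 := (finrank_eq_one_iff_of_nonzero' (⟨y₀, hy₀E⟩ : riemannRochSpace E)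
      (by intro h; exact hy₀ (congrArg Subtype.val h))).mp hn ⟨z, hz⟩
    obtain ⟨c, hc⟩ := h1
    exact ⟨c, congrArg Subtype.val hc⟩
  have hEv : ∀ v : Place K F, E v = D v + if v = P then (n : ℤ) else 0 := by
    intro v
    rw [hE, Finsupp.add_apply, Finsupp.smul_apply, Finsupp.single_apply]
    by_cases hv : v = P
    · subst hv; simp
    · rw [if_neg hv, if_neg (Ne.symm hv)]; simp
  refine ⟨Units.mk0 y₀ hy₀, fun g hgP hgu => ?_⟩
  rw [Units.val_mk0]
  rw [KV.semilinear_smul_mk, KV.mk_eq_mk_iff] at hgu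
  obtain ⟨w, hw⟩ := hgu
  have hw' : (w : F) ^ m * U = g • U := by
    have := congrArg (fun x : Fˣ => (x : F)) hw
    simpa [coe_semilinearUnits] using this
  have hw0 : (w : F) ≠ 0 := w.ne_zero
  have hgy0 : g • y₀ ≠ 0 := by
    rw [Ne, smul_eq_zero_iff_eq]; exact hy₀
  have hord : ∀ (v : Place K F) (f : F), v.ord (g • f) = (g⁻¹ • v).ord f := by
    intro v f
    have h := SemilinearAut.ord_smul g (g⁻¹ • v) f
    rwa [smul_inv_smul] at h
  have hDg : ∀ v : Place K F, D (g⁻¹ • v) = v.ord (w : F) + D v := by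
    intro v
    have h1 : (m : ℤ) * D (g⁻¹ • v) = m * (v.ord (w : F) + D v) := by
      rw [hDv, ← hord, ← hw', v.ord_mul (pow_ne_zero _ hw0) hU0, mul_add, hDv]
      congr 1
      have h := v.ord_zpow (w : F) (m : ℤ)
      rwa [zpow_natCast] at h
    exact mul_left_cancel₀ hm0 h1
  have hmem : (w : F) * g • y₀ ∈ riemannRochSpace E := by
    rw [mem_riemannRochSpace_iff]
    intro v
    right
    rw [v.ord_mul hw0 hgy0, hord]
    have h1 := ((mem_riemannRochSpace_iff.mp hy₀E) (g⁻¹ • v)).resolve_left hy₀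
    rw [hEv, hDg] at h1
    rw [hEv]
    have h2 : (g⁻¹ • v = P) ↔ v = P := by
      rw [inv_smul_eq_iff, hgP]
    simp only [h2] at h1
    omega
  obtain ⟨c, hc⟩ := hspan _ hmem
  have hc0 : c ≠ 0 := by
    rintro rfl
    rw [zero_smul] at hc
    exact mul_ne_zero hw0 hgy0 hc.symm
  refine ⟨c ^ m, pow_ne_zero _ hc0, ?_⟩
  rw [smul_mul', smul_pow', ← hw', map_pow]
  have h3 : (w : F) ^ m * U * (g • y₀) ^ m = U * ((w : F) * g • y₀) ^ m := by ring
  rw [h3, ← hc, Algebra.smul_def]
  ring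

end Fermat.Agent.GAL.Tors.Desc
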