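import Mathlib
import Fermat.Agent.GAL.Tors.Desc.BaseChange
import Fermat.Agent.GAL.Tors.Desc.SemiInv
import Fermat.Agent.GAL.Tors.Dict.PlaceOf
import Fermat.Agent.S24.JRational

set_option autoImplicit false
set_option linter.unusedSectionVars false

/-!
# GAL-TORS / DESC, file Canonical: a canonical representative of a Kummer class

`L` algebraically closed of characteristic `0`, `F = F_L = laurentBaseChange L F₀ ⊆ L((q))` a
function field (`Lib.RR.IsFF`), `G = (L ≃ₐ[ℚ] L)` acting coefficientwise.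

For a Kummer unit `u` we find `g ∈ Fˣ` such that `u g^m` is fixed by every `σ ∈ G`
which fixes the class of `u` modulo `m`-th powers:  `Tors.Desc.exists_semiinvariant` (DS1) for the
place at infinity (`q`-order) gives `u y^m` fixed up to a constant; normalise its leading
coefficient to `1`.
-/

noncomputable section

namespace Fermat.Agent.GAL.Desc

open AlgebraicCurve ModularCurve Fermat.Agent.Lib.RR

variable {L : Type*} [Field L] [Algebra ℚ L]
variable (F₀ : IntermediateField ℚ (LaurentSeries ℚ))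

/-- the leading coefficient. -/
def qlead (f : laurentBaseChange L F₀) : L := (f : LaurentSeries L).leadingCoeff

variable {F₀}

theorem qlead_smul_galois (σ : L ≃ₐ[ℚ] L) (f : laurentBaseChange L F₀) :
    qlead F₀ (arithmeticGalois F₀ σ • f) = σ (qlead F₀ f) := by
  unfold qlead
  rw [coe_arithmeticGalois_smul, Fermat.Agent.S24.JRational.leadingCoeff_coeffMap]
  rfl

theorem qlead_ne_zero {f : laurentBaseChange L F₀} (hf : f ≠ 0) : qlead F₀ f ≠ 0 := by
  unfold qlead
  rw [Ne, HahnSeries.leadingCoeff_eq_zero]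
  exact fun h => hf (Subtype.ext h)

theorem qlead_algebraMap_mul (c : L) (f : laurentBaseChange L F₀) :
    qlead F₀ (algebraMap L (laurentBaseChange L F₀) c * f) = c * qlead F₀ f := by
  unfold qlead
  have h : ((algebraMap L (laurentBaseChange L F₀) c * f : laurentBaseChange L F₀) :
      LaurentSeries L) = algebraMap L (LaurentSeries L) c * (f : LaurentSeries L) := rfl
  rw [h, HahnSeries.leadingCoeff_mul, algebraMap_laurentSeries_eq_single,
    HahnSeries.leadingCoeff_of_single]

/-- **(DS2) the place at infinity** (`q`-order), fixed by the Galois action.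
`Dict.exists_place_of_hom` for the inclusion `F_L → L((q))` gives `P` with valuation ring
`S24.ringOf φ = {f | 0 ≤ order f}`; `σ • P = P` by `Place.ext` (the order of a series does not change
under `coeffMap σ`; `ValuationSubring.mem_pointwise_smul_iff_inv_smul_mem`). -/
theorem exists_place_infty [IsAlgClosed L] (x₀ : laurentBaseChange L F₀)
    (hx₀ : (x₀ : LaurentSeries L).order ≠ 0) :
    ∃ P : Place L (laurentBaseChange L F₀), ∀ σ : L ≃ₐ[ℚ] L, arithmeticGalois F₀ σ • P = P := by
  obtain ⟨P, M, -, hP, -⟩ := Fermat.Agent.GAL.Tors.Dict.exists_place_of_hom (k := L)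
    ((laurentBaseChange L F₀).val : laurentBaseChange L F₀ →+* LaurentSeries L) x₀ hx₀
  refine ⟨P, fun σ => ?_⟩
  ext1
  rw [SemilinearAut.smul_toValuationSubring, hP]
  ext f
  rw [ValuationSubring.mem_pointwise_smul_iff_inv_smul_mem, Fermat.Agent.S24.mem_ringOf,
    Fermat.Agent.S24.mem_ringOf, ← map_inv]
  have h : Fermat.Agent.S24.ordOf
      ((laurentBaseChange L F₀).val : laurentBaseChange L F₀ →+* LaurentSeries L)
      (arithmeticGalois F₀ σ⁻¹ • f) = Fermat.Agent.S24.ordOf
      ((laurentBaseChange L F₀).val : laurentBaseChange L F₀ →+* LaurentSeries L) f := by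
    unfold Fermat.Agent.S24.ordOf
    exact Fermat.Agent.S24.JRational.order_coeffMap _ _
  rw [h]

/-- **the canonical representative.**  With `y` from DS1, `a := qlead (u y^m)`, `b^m = a⁻¹`,
`g := b y`: `w := u g^m = a⁻¹ u y^m` has leading coefficient `1`; `σ w = c' w` for a constant `c'`,
and comparing leading coefficients `c' = 1`. -/
theorem exists_canonical [IsAlgClosed L] [IsFF L (laurentBaseChange L F₀)] {m : ℕ} (hm : m ≠ 0)
    (x₀ : laurentBaseChange L F₀) (hx₀ : (x₀ : LaurentSeries L).order ≠ 0)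
    (u : kummerUnits L (laurentBaseChange L F₀) m) :
    ∃ g : (laurentBaseChange L F₀)ˣ, ∀ σ : L ≃ₐ[ℚ] L, σ • KV.mk u = KV.mk u →
      arithmeticGalois F₀ σ •
          ((((u : (laurentBaseChange L F₀)ˣ)) : laurentBaseChange L F₀)
            * (g : laurentBaseChange L F₀) ^ m)
        = (((u : (laurentBaseChange L F₀)ˣ)) : laurentBaseChange L F₀)
            * (g : laurentBaseChange L F₀) ^ m := by
  have : NeZero m := ⟨hm⟩
  obtain ⟨P, hP⟩ := exists_place_infty x₀ hx₀
  obtain ⟨y, hy⟩ := Fermat.Agent.GAL.Tors.Desc.exists_semiinvariant m P u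
  set w₀ : laurentBaseChange L F₀ :=
    (((u : (laurentBaseChange L F₀)ˣ)) : laurentBaseChange L F₀) * (y : laurentBaseChange L F₀) ^ m
    with hw₀
  have hw₀0 : w₀ ≠ 0 := mul_ne_zero (Units.ne_zero _) (pow_ne_zero _ (Units.ne_zero _))
  have ha : qlead F₀ w₀ ≠ 0 := qlead_ne_zero hw₀0
  obtain ⟨b, hb⟩ := IsAlgClosed.exists_pow_nat_eq (qlead F₀ w₀)⁻¹ (Nat.pos_of_ne_zero hm)
  have hb0 : b ≠ 0 := by
    rintro rfl
    rw [zero_pow hm] at hb
    exact inv_ne_zero ha hb.symm
  have hbF : algebraMap L (laurentBaseChange L F₀) b ≠ 0 := by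
    simpa using hb0
  refine ⟨Units.mk0 _ hbF * y, fun σ hσ => ?_⟩
  have hw : (((u : (laurentBaseChange L F₀)ˣ)) : laurentBaseChange L F₀)
      * ((Units.mk0 _ hbF * y : (laurentBaseChange L F₀)ˣ) : laurentBaseChange L F₀) ^ m
      = algebraMap L (laurentBaseChange L F₀) (qlead F₀ w₀)⁻¹ * w₀ := by
    rw [Units.val_mul, Units.val_mk0, mul_pow, ← map_pow, hb, hw₀]
    ring
  rw [hw]
  obtain ⟨c, hc0, hc⟩ := hy (arithmeticGalois F₀ σ) (hP σ) hσ
  -- compare leading coefficients
  have h1 : σ (qlead F₀ w₀) = c * qlead F₀ w₀ := by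
    rw [← qlead_smul_galois, hc, qlead_algebraMap_mul]
  rw [smul_mul', hc, SemilinearAut.smul_algebraMap, baseAut_arithmeticGalois]
  have h2 : (σ.toRingEquiv) (qlead F₀ w₀)⁻¹ = (c * qlead F₀ w₀)⁻¹ := by
    rw [map_inv₀]
    exact congrArg _ h1
  rw [h2, ← mul_assoc, ← map_mul]
  congr 2
  field_simp

end Fermat.Agent.GAL.Desc
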