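import Mathlib
import Fermat.Agent.GAL.Tors.Desc.BaseChange
import Fermat.Agent.Lib.IS.FixedField

set_option autoImplicit false
set_option linter.unusedSectionVars false

/-!
# GAL-TORS / DESC, file Orbit: elements of `F_L` with finite orbit under `Aut(L/ℚ)` come from `F_K`

`L` algebraically closed of characteristic `0`, `K` an algebraic closure of `ℚ`, `ι : K → L`.
`G = (L ≃ₐ[ℚ] L)` acts on `F_L` coefficientwise (Prelude `arithmeticGalois`).
-/

noncomputable section

namespace Fermat.Agent.GAL.Desc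

open AlgebraicCurve ModularCurve

variable {K L : Type*} [Field K] [Field L] [Algebra ℚ K] [Algebra ℚ L] (ι : K →+* L)
variable (F₀ : IntermediateField ℚ (LaurentSeries ℚ))

open MvPolynomial in
/-- If `x` is transcendental over `ℚ`, then for every `c : ℚ`, `c ≠ 0` there is an automorphism of
`L` with `σ x = c x` (copy the proof of `Lib.IS.exists_ringEquiv_ne_of_transcendental`, where
`c = 2`; a ring automorphism of a `ℚ`-algebra is a `ℚ`-algebra automorphism:
`RingEquiv.toRatAlgEquiv` / `AlgEquiv.ofRingEquiv` + `map_ratCast`). -/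
theorem exists_algEquiv_smul_of_transcendental [IsAlgClosed L] {x : L} (hx : Transcendental ℚ x)
    {c : ℚ} (hc : c ≠ 0) : ∃ σ : L ≃ₐ[ℚ] L, σ x = algebraMap ℚ L c * x := by
  have hs : AlgebraicIndepOn ℚ id ({x} : Set L) :=
    (algebraicIndependent_singleton_iff (⟨x, rfl⟩ : ({x} : Set L))).mpr hx
  obtain ⟨t, hst, hv⟩ := exists_isTranscendenceBasis_superset hs
  let _ := IsAlgClosed.isAlgClosure_of_transcendence_basis _ hv
  let i₀ : t := ⟨x, hst rfl⟩
  let φ : MvPolynomial t ℚ ≃ₐ[ℚ] MvPolynomial t ℚ :=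
    AlgEquiv.ofAlgHom (aeval fun i => C c * X i) (aeval fun i => C c⁻¹ * X i)
      (by
        ext i
        simp only [AlgHom.coe_comp, Function.comp_apply, aeval_X, map_mul, AlgHom.coe_id, id_eq,
          algHom_C, algebraMap_eq]
        rw [← mul_assoc, ← C_mul, inv_mul_cancel₀ hc, C_1, one_mul])
      (by
        ext i
        simp only [AlgHom.coe_comp, Function.comp_apply, aeval_X, map_mul, AlgHom.coe_id, id_eq,
          algHom_C, algebraMap_eq]
        rw [← mul_assoc, ← C_mul, mul_inv_cancel₀ hc, C_1, one_mul])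
  let e : Algebra.adjoin ℚ (Set.range ((↑) : t → L)) ≃+* Algebra.adjoin ℚ (Set.range ((↑) : t → L)) :=
    (hv.1.aevalEquiv.symm.toRingEquiv.trans φ.toRingEquiv).trans hv.1.aevalEquiv.toRingEquiv
  refine ⟨AlgEquiv.ofRingEquiv (f := IsAlgClosure.equivOfEquiv L L e) (fun q => by simp), ?_⟩
  have h1 : x = algebraMap (Algebra.adjoin ℚ (Set.range ((↑) : t → L))) L
      (hv.1.aevalEquiv (X i₀)) := by
    rw [AlgebraicIndependent.algebraMap_aevalEquiv, aeval_X]
  change IsAlgClosure.equivOfEquiv L L e x = _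
  conv_lhs => rw [h1]
  rw [IsAlgClosure.equivOfEquiv_algebraMap]
  simp only [e, RingEquiv.trans_apply, AlgEquiv.coe_ringEquiv, AlgEquiv.symm_apply_apply]
  rw [AlgebraicIndependent.algebraMap_aevalEquiv]
  simp [φ, i₀]

/-- finite orbit => algebraic (otherwise the `(n+1) x` are infinitely many conjugates). -/
theorem isAlgebraic_of_finite_orbit [IsAlgClosed L] {x : L}
    (h : (Set.range fun σ : L ≃ₐ[ℚ] L => σ x).Finite) : IsAlgebraic ℚ x := by
  by_contra hx
  have hx0 : x ≠ 0 := by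
    rintro rfl
    exact hx isAlgebraic_zero
  have hinj : Function.Injective fun n : ℕ => algebraMap ℚ L ((n : ℚ) + 1) * x := by
    intro a b hab
    have h2 : algebraMap ℚ L ((a : ℚ) + 1) = algebraMap ℚ L ((b : ℚ) + 1) :=
      mul_right_cancel₀ hx0 hab
    have h3 := (algebraMap ℚ L).injective h2
    exact_mod_cast add_right_cancel h3
  refine Set.infinite_of_injective_forall_mem hinj (s := Set.range fun σ : L ≃ₐ[ℚ] L => σ x)
    (fun n => ?_) h
  obtain ⟨σ, hσ⟩ := exists_algEquiv_smul_of_transcendental (L := L) hx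
    (c := (n : ℚ) + 1) (by positivity)
  exact ⟨σ, hσ⟩

/-- algebraic => finite orbit (the conjugates are roots of the minimal polynomial). -/
theorem finite_orbit_of_isAlgebraic {x : L} (h : IsAlgebraic ℚ x) :
    (Set.range fun σ : L ≃ₐ[ℚ] L => σ x).Finite := by
  refine (Polynomial.rootSet_finite (minpoly ℚ x) L).subset ?_
  rintro _ ⟨σ, rfl⟩
  rw [Polynomial.mem_rootSet]
  refine ⟨minpoly.ne_zero h.isIntegral, ?_⟩
  have := Polynomial.aeval_algHom_apply (σ : L →ₐ[ℚ] L) x (minpoly ℚ x)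
  rw [minpoly.aeval, map_zero] at this
  exact this

/-- an element of `L` algebraic over `ℚ` lies in the image of the algebraically closed field `K`. -/
theorem mem_range_of_isAlgebraic [IsAlgClosed K] {x : L} (h : IsAlgebraic ℚ x) :
    x ∈ Set.range ι := by
  let _ : Algebra K L := ι.toAlgebra
  have : IsScalarTower ℚ K L := IsScalarTower.of_algebraMap_eq' (Subsingleton.elim _ _)
  have hK : IsIntegral K x := h.isIntegral.tower_top
  have hdeg := IsAlgClosed.degree_eq_one_of_irreducible K (minpoly.irreducible hK)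
  exact minpoly.mem_range_of_degree_eq_one K x hdeg

/-- The orbit of `x ∈ F_L` under `Aut(L/ℚ)` is finite. -/
def FinOrb (x : laurentBaseChange L F₀) : Prop :=
  (Set.range fun σ : L ≃ₐ[ℚ] L => arithmeticGalois F₀ σ • x).Finite

theorem Orbit_smul_eq (σ : L ≃ₐ[ℚ] L) (x : laurentBaseChange L F₀) :
    arithmeticGalois F₀ σ • x = arithmeticRingAut F₀ σ x := rfl

variable {F₀} in
theorem FinOrb.add {x y : laurentBaseChange L F₀} (hx : FinOrb F₀ x) (hy : FinOrb F₀ y) :
    FinOrb F₀ (x + y) := by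
  refine (Set.Finite.image2 (· + ·) hx hy).subset ?_
  rintro _ ⟨σ, rfl⟩
  exact ⟨_, ⟨σ, rfl⟩, _, ⟨σ, rfl⟩, (map_add (arithmeticRingAut F₀ σ) x y).symm⟩

variable {F₀} in
theorem FinOrb.mul {x y : laurentBaseChange L F₀} (hx : FinOrb F₀ x) (hy : FinOrb F₀ y) :
    FinOrb F₀ (x * y) := by
  refine (Set.Finite.image2 (· * ·) hx hy).subset ?_
  rintro _ ⟨σ, rfl⟩
  exact ⟨_, ⟨σ, rfl⟩, _, ⟨σ, rfl⟩, (map_mul (arithmeticRingAut F₀ σ) x y).symm⟩

variable {F₀} in
theorem FinOrb.neg {x : laurentBaseChange L F₀} (hx : FinOrb F₀ x) : FinOrb F₀ (-x) := by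
  refine (Set.Finite.image (fun z => -z) hx).subset ?_
  rintro _ ⟨σ, rfl⟩
  exact ⟨_, ⟨σ, rfl⟩, (map_neg (arithmeticRingAut F₀ σ) x).symm⟩

variable {F₀} in
theorem FinOrb.inv {x : laurentBaseChange L F₀} (hx : FinOrb F₀ x) : FinOrb F₀ x⁻¹ := by
  refine (Set.Finite.image (fun z => z⁻¹) hx).subset ?_
  rintro _ ⟨σ, rfl⟩
  exact ⟨_, ⟨σ, rfl⟩, (map_inv₀ (arithmeticRingAut F₀ σ) x).symm⟩

theorem Orbit_finOrb_of_fixed {x : laurentBaseChange L F₀}
    (h : ∀ σ : L ≃ₐ[ℚ] L, arithmeticGalois F₀ σ • x = x) : FinOrb F₀ x := by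
  refine (Set.finite_singleton x).subset ?_
  rintro _ ⟨σ, rfl⟩
  exact h σ

theorem Orbit_finOrb_algebraMap {a : L} (ha : IsAlgebraic ℚ a) :
    FinOrb F₀ (algebraMap L (laurentBaseChange L F₀) a) := by
  refine (Set.Finite.image (algebraMap L (laurentBaseChange L F₀))
    (finite_orbit_of_isAlgebraic ha)).subset ?_
  rintro _ ⟨σ, rfl⟩
  exact ⟨_, ⟨σ, rfl⟩, (arithmeticRingAut_algebraMap F₀ σ a).symm⟩

theorem Orbit_finOrb_bc_aux [Algebra.IsAlgebraic ℚ K] {x : LaurentSeries K}
    (hx : x ∈ Subfield.closure (Set.range (algebraMap K (LaurentSeries K)) ∪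
      (⇑(coeffEmb K) '' (F₀ : Set (LaurentSeries ℚ))))) :
    ∃ z : laurentBaseChange K F₀, (z : LaurentSeries K) = x ∧ FinOrb F₀ (bc ι F₀ z) := by
  induction hx using Subfield.closure_induction with
  | mem y hy =>
      rcases hy with ⟨a, rfl⟩ | ⟨z, hz, rfl⟩
      · refine ⟨algebraMap K (laurentBaseChange K F₀) a, rfl, ?_⟩
        rw [bc_algebraMap]
        exact Orbit_finOrb_algebraMap F₀
          (IsAlgebraic.algHom ι.toRatAlgHom (Algebra.IsAlgebraic.isAlgebraic (R := ℚ) a))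
      · refine ⟨⟨_, coeffEmb_mem_laurentBaseChange K hz⟩, rfl,
          Orbit_finOrb_of_fixed F₀ fun σ => ?_⟩
        apply Subtype.ext
        rw [coe_arithmeticGalois_smul, coe_bc, coeffMap_coeffEmb_hom, coeffMap_coeffEmb]
  | one =>
      refine ⟨1, rfl, Orbit_finOrb_of_fixed F₀ fun σ => ?_⟩
      rw [map_one]
      exact map_one (arithmeticRingAut F₀ σ)
  | add x y _ _ hx hy =>
      obtain ⟨z, rfl, h2⟩ := hx
      obtain ⟨w, rfl, h4⟩ := hy
      refine ⟨z + w, rfl, ?_⟩
      rw [map_add]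
      exact h2.add h4
  | neg x _ hx =>
      obtain ⟨z, rfl, h2⟩ := hx
      refine ⟨-z, rfl, ?_⟩
      rw [map_neg]
      exact h2.neg
  | inv x _ hx =>
      obtain ⟨z, rfl, h2⟩ := hx
      refine ⟨z⁻¹, IntermediateField.coe_inv _ z, ?_⟩
      rw [map_inv₀]
      exact h2.inv
  | mul x y _ _ hx hy =>
      obtain ⟨z, rfl, h2⟩ := hx
      obtain ⟨w, rfl, h4⟩ := hy
      refine ⟨z * w, rfl, ?_⟩
      rw [map_mul]
      exact h2.mul h4

/-- elements of `F_K` have finite orbit (`Subfield.closure_induction` as in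
`coeffMap_mem_baseChange`: constants of `K` are algebraic, elements of `F₀` are fixed). -/
theorem finOrb_bc [Algebra.IsAlgebraic ℚ K] (x : laurentBaseChange K F₀) :
    FinOrb F₀ (bc ι F₀ x) := by
  obtain ⟨z, hz, h⟩ := Orbit_finOrb_bc_aux ι F₀ (mem_laurentBaseChange_iff.mp x.2)
  rwa [Subtype.ext hz] at h

variable {F₀} in
/-- if `y ^ m` has finite orbit (`m ≠ 0`) then so has `y` (every element has at most `m`
`m`-th roots in a field). -/
theorem FinOrb.of_pow {m : ℕ} (hm : m ≠ 0) {y : laurentBaseChange L F₀}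
    (h : FinOrb F₀ (y ^ m)) : FinOrb F₀ y := by
  classical
  have hfin : (⋃ s ∈ (Set.range fun σ : L ≃ₐ[ℚ] L => arithmeticGalois F₀ σ • (y ^ m)),
      {z : laurentBaseChange L F₀ | z ^ m = s}).Finite := by
    refine Set.Finite.biUnion h fun s _ => ?_
    refine (Polynomial.nthRoots m s).toFinset.finite_toSet.subset fun z hz => ?_
    rw [Finset.mem_coe, Multiset.mem_toFinset, Polynomial.mem_nthRoots (Nat.pos_of_ne_zero hm)]
    exact hz
  refine hfin.subset ?_
  rintro _ ⟨σ, rfl⟩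
  rw [Set.mem_iUnion₂]
  exact ⟨_, ⟨σ, rfl⟩, (map_pow (arithmeticRingAut F₀ σ) y m).symm⟩

variable {F₀} in
/-- **finite orbit => defined over `K`**: every coefficient has finite orbit, so it is algebraic, so
it lies in `ι K`; conclude with `mem_range_bc_of_coeff`. -/
theorem FinOrb.mem_range_bc [IsAlgClosed K] [IsAlgClosed L] {x : laurentBaseChange L F₀}
    (h : FinOrb F₀ x) : x ∈ Set.range (bc ι F₀) := by
  refine mem_range_bc_of_coeff ι F₀ x fun n => ?_
  apply mem_range_of_isAlgebraic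
  apply isAlgebraic_of_finite_orbit
  refine (Set.Finite.image (fun z : laurentBaseChange L F₀ => (z : LaurentSeries L).coeff n)
    h).subset ?_
  rintro _ ⟨σ, rfl⟩
  exact ⟨_, ⟨σ, rfl⟩, rfl⟩

end Fermat.Agent.GAL.Desc
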