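import Mathlib
import Fermat.Agent.GAL.Tors.Desc.BaseChange
import Fermat.Agent.GAL.Tors.Dict.PlaceOf

set_option autoImplicit false
set_option linter.unusedSectionVars false

/-!
# GAL-TORS / DESC, file PlacesRestrict: restriction of places of `F_L` to `F_K`, normal form of
elements of `spanBC`
-/

noncomputable section

namespace Fermat.Agent.GAL.Desc

open AlgebraicCurve ModularCurve

variable {K L : Type*} [Field K] [Field L] [Algebra ℚ K] [Algebra ℚ L] (ι : K →+* L)
variable (F₀ : IntermediateField ℚ (LaurentSeries ℚ))

/-- restriction of a place of `F_L` to `F_K` (`Dict.exists_place_of_ordFun` for the order function `P'.ord ∘ bc`, as in the proof of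
`Dict.dvd_ord_map`). -/
theorem exists_place_comap (P' : Place L (laurentBaseChange L F₀)) :
    (∀ f : laurentBaseChange K F₀, P'.ord (bc ι F₀ f) = 0) ∨
      ∃ (P : Place K (laurentBaseChange K F₀)) (e : ℤ), 0 < e ∧
        ∀ f : laurentBaseChange K F₀, P'.ord (bc ι F₀ f) = e * P.ord f := by
  by_cases h : ∀ f : laurentBaseChange K F₀, P'.ord (bc ι F₀ f) = 0
  · exact Or.inl h
  right
  push Not at h
  obtain ⟨x, hx⟩ := h
  have hx0 : x ≠ 0 := by
    rintro rfl
    apply hx
    rw [map_zero, Place.ord_zero]
  have hne : ∀ {f : laurentBaseChange K F₀}, f ≠ 0 → bc ι F₀ f ≠ 0 :=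
    fun hf => (map_ne_zero (bc ι F₀)).mpr hf
  let w : Fermat.Agent.S24.OrdFun K (laurentBaseChange K F₀) :=
    { ord := fun f => P'.ord (bc ι F₀ f)
      ord_mul := by
        intro f g hf hg
        rw [map_mul, Place.ord_mul _ (hne hf) (hne hg)]
      ord_add := by
        intro f g hf hg hfg
        rw [map_add]
        refine Fermat.Agent.S24.ord_add_ge P' ?_ (hne hf) (hne hg)
        rw [← map_add]
        exact hne hfg
      ord_algebraMap := by
        intro a _
        rw [bc_algebraMap, Fermat.Agent.S24.ord_algebraMap] }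
  obtain ⟨v, M, hM, hv⟩ := Fermat.Agent.GAL.Tors.Dict.exists_place_of_ordFun w x hx0 hx
  refine ⟨v, M, hM, fun f => ?_⟩
  by_cases hf : f = 0
  · rw [hf, map_zero, Place.ord_zero, Place.ord_zero, mul_zero]
  · exact hv f hf

/-- **normal form**: every element of `spanBC` is `∑ b_i • bc (g_i)` with the `b_i ∈ L` linearly
independent over `K`.  (Take for `b` a `K`-basis of `L`, `Module.Basis.ofVectorSpace`, `L` being a
`K`-algebra via `ι.toAlgebra`; span induction.)  Linear independence is stated by hand. -/
theorem exists_indep_repr {P : laurentBaseChange L F₀} (hP : P ∈ spanBC ι F₀) :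
    ∃ (n : ℕ) (b : Fin n → L) (g : Fin n → laurentBaseChange K F₀),
      (∀ c : Fin n → K, ∑ i, b i * ι (c i) = 0 → c = 0) ∧
        P = ∑ i, b i • bc ι F₀ (g i) := by
  classical
  let _ : Algebra K L := ι.toAlgebra
  have halg : ∀ (r : K) (c : L), r • c = ι r * c := fun r c => Algebra.smul_def r c
  let b := Module.Basis.ofVectorSpace K L
  let Φ : (↥(Module.Basis.ofVectorSpaceIndex K L) →₀ laurentBaseChange K F₀) →+
      laurentBaseChange L F₀ :=
    Finsupp.liftAddHom (fun i =>
      (DistribSMul.toAddMonoidHom (laurentBaseChange L F₀) (b i)).comp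
        (bc ι F₀).toAddMonoidHom)
  have hΦ : ∀ g, Φ g = ∑ i ∈ g.support, b i • bc ι F₀ (g i) := by
    intro g
    rfl
  have hΦs : ∀ i x, Φ (Finsupp.single i x) = b i • bc ι F₀ x := by
    intro i x
    simp [Φ]
  have hbc : ∀ (r : K) (f : laurentBaseChange K F₀),
      bc ι F₀ (algebraMap K _ r * f) = ι r • bc ι F₀ f := by
    intro r f
    rw [map_mul, bc_algebraMap, Algebra.smul_def]
  have hA : ∀ c : L, ∀ f, c • bc ι F₀ f ∈ Φ.range := by
    intro c
    have hc : c ∈ Submodule.span K (Set.range b) := by
      rw [b.span_eq]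
      trivial
    induction hc using Submodule.span_induction with
    | mem x hx =>
      obtain ⟨i, rfl⟩ := hx
      intro f
      exact ⟨Finsupp.single i f, hΦs i f⟩
    | zero =>
      intro f
      rw [zero_smul]
      exact zero_mem _
    | add x y _ _ hx hy =>
      intro f
      rw [add_smul]
      exact add_mem (hx f) (hy f)
    | smul r x _ hx =>
      intro f
      have := hx (algebraMap K _ r * f)
      rw [hbc, smul_smul] at this
      rw [halg, mul_comm]
      exact this
  have hB : ∀ (c : L) g, c • Φ g ∈ Φ.range := by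
    intro c g
    induction g using Finsupp.induction_linear with
    | zero =>
      rw [map_zero, smul_zero]
      exact zero_mem _
    | add g g' hg hg' =>
      rw [map_add, smul_add]
      exact add_mem hg hg'
    | single i x =>
      rw [hΦs, smul_smul]
      exact hA _ _
  have hC : P ∈ Φ.range := by
    unfold spanBC at hP
    induction hP using Submodule.span_induction with
    | mem x hx =>
      obtain ⟨f, rfl⟩ := hx
      have := hA 1 f
      rwa [one_smul] at this
    | zero => exact zero_mem _
    | add x y _ _ hx hy => exact add_mem hx hy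
    | smul c x _ hx =>
      obtain ⟨g, rfl⟩ := hx
      exact hB c g
  obtain ⟨g, rfl⟩ := hC
  let e := g.support.equivFin
  refine ⟨g.support.card, fun j => b (e.symm j), fun j => g (e.symm j), ?_, ?_⟩
  · intro c hc
    have hli : LinearIndependent K (fun j : Fin g.support.card => b (e.symm j : _)) :=
      b.linearIndependent.comp (fun j : Fin g.support.card => ((e.symm j : g.support) : _))
        (Subtype.val_injective.comp e.symm.injective)
    rw [Fintype.linearIndependent_iff] at hli
    funext j
    refine hli c ?_ j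
    rw [← hc]
    exact Finset.sum_congr rfl fun j _ => by rw [halg, mul_comm]
  · rw [hΦ, ← Finset.sum_coe_sort g.support (fun i => b i • bc ι F₀ (g i))]
    exact (Equiv.sum_comp e.symm (fun i : g.support => b i • bc ι F₀ (g i))).symm

/-- base change preserves Kummer units (`Dict.dvd_ord_map`, `bc_algebraMap`). -/
theorem bc_mem_kummerUnits (m : ℕ) (u : (laurentBaseChange K F₀)ˣ)
    (hu : u ∈ kummerUnits K (laurentBaseChange K F₀) m) :
    Units.map (bc ι F₀ : laurentBaseChange K F₀ →* laurentBaseChange L F₀) u
      ∈ kummerUnits L (laurentBaseChange L F₀) m := by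
  intro P
  exact Fermat.Agent.GAL.Tors.Dict.dvd_ord_map (K := K) (K' := L) (bc ι F₀)
    (fun a => ⟨ι a, bc_algebraMap ι F₀ a⟩) m u u.ne_zero hu P

end Fermat.Agent.GAL.Desc
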