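import Mathlib
import Fermat.Agent.GAL.Tors.Desc.PlacesRestrict
import Fermat.Agent.GAL.FF.Corollaries
import Fermat.Agent.S24.PlaceBasic

set_option autoImplicit false
set_option linter.unusedSectionVars false

/-!
# GAL-TORS / DESC, file PlacesRam: constant field extensions are unramified
-/

noncomputable section

namespace Fermat.Agent.GAL.Desc

open AlgebraicCurve ModularCurve Fermat.Agent.Lib.RR

section General

variable {K F : Type*} [Field K] [Field F] [Algebra K F]

/-- Every element of the valuation ring is congruent to a constant. -/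
theorem PlacesRam_exists_const [IsAlgClosed K] [IsPreFF K F] (v : Place K F) (z : F)
    (hz : z ∈ v.toValuationSubring) :
    ∃ c : K, z = algebraMap K F c ∨ 0 < v.ord (z - algebraMap K F c) := by
  have hsurj : Function.Surjective (algebraMap K v.ResidueField) :=
    (IsAlgClosed.algebraMap_bijective_of_isIntegral (k := K)).2
  obtain ⟨c, hc⟩ := hsurj (IsLocalRing.residue _ (⟨z, hz⟩ : v.toValuationSubring))
  refine ⟨c, ?_⟩
  have h1 : IsLocalRing.residue _ ((⟨z, hz⟩ : v.toValuationSubring)
      - algebraMap K v.toValuationSubring c) = 0 := by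
    rw [map_sub, sub_eq_zero]
    exact hc.symm
  rw [IsLocalRing.residue_eq_zero_iff, Fermat.Agent.S24.mem_maximalIdeal_iff] at h1
  have hcoe : (((⟨z, hz⟩ : v.toValuationSubring) - algebraMap K v.toValuationSubring c :
      v.toValuationSubring) : F) = z - algebraMap K F c := by
    push_cast
    rw [Place.coe_algebraMap]
  rw [hcoe] at h1
  rcases h1 with h1 | h1
  · exact Or.inl (sub_eq_zero.1 h1)
  · exact Or.inr h1

/-- `z` lies in the maximal ideal of `v`. -/
def PlacesRam_Pos (v : Place K F) (z : F) : Prop := z = 0 ∨ 0 < v.ord z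

theorem PlacesRam_ord_smul (v : Place K F) {b : K} (hb : b ≠ 0) (z : F) :
    v.ord (b • z) = v.ord z := by
  rcases eq_or_ne z 0 with rfl | hz
  · simp
  rw [Algebra.smul_def, v.ord_mul (by simpa using hb) hz, Fermat.Agent.S24.ord_algebraMap, zero_add]

theorem PlacesRam_ord_neg (v : Place K F) (z : F) : v.ord (-z) = v.ord z := by
  have h : -z = (-1 : K) • z := by simp
  rw [h, PlacesRam_ord_smul v (by simp)]

theorem PlacesRam_Pos.add {v : Place K F} {z w : F} (hz : PlacesRam_Pos v z)
    (hw : PlacesRam_Pos v w) : PlacesRam_Pos v (z + w) := by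
  rcases eq_or_ne z 0 with rfl | hz0
  · simpa using hw
  rcases eq_or_ne w 0 with rfl | hw0
  · simpa using hz
  rcases eq_or_ne (z + w) 0 with h | h
  · exact Or.inl h
  right
  have h1 := hz.resolve_left hz0
  have h2 := hw.resolve_left hw0
  have h3 := Fermat.Agent.S24.ord_add_ge v h hz0 hw0
  exact lt_of_lt_of_le (lt_min h1 h2) h3

theorem PlacesRam_Pos.smul {v : Place K F} {z : F} (hz : PlacesRam_Pos v z) (b : K) :
    PlacesRam_Pos v (b • z) := by
  rcases eq_or_ne b 0 with rfl | hb
  · left; simp
  rcases hz with rfl | hz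
  · left; simp
  · right; rwa [PlacesRam_ord_smul v hb]

theorem PlacesRam_Pos.sum {v : Place K F} {ι' : Type*} (s : Finset ι') (z : ι' → F)
    (hz : ∀ i ∈ s, PlacesRam_Pos v (z i)) : PlacesRam_Pos v (∑ i ∈ s, z i) := by
  classical
  induction s using Finset.induction_on with
  | empty => left; simp
  | insert a s ha ih =>
    rw [Finset.sum_insert ha]
    exact (hz a (Finset.mem_insert_self a s)).add
      (ih fun i hi => hz i (Finset.mem_insert_of_mem hi))

theorem PlacesRam_ord_const_add (v : Place K F) {a : K} (ha : a ≠ 0) {z : F}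
    (hz : PlacesRam_Pos v z) : v.ord (algebraMap K F a + z) = 0 := by
  have ha' : algebraMap K F a ≠ 0 := by simpa using ha
  rcases hz with rfl | hz
  · rw [add_zero, Fermat.Agent.S24.ord_algebraMap]
  have hz0 : z ≠ 0 := by
    rintro rfl
    simp at hz
  have hs : algebraMap K F a + z ≠ 0 := by
    intro h
    have h1 : z = -algebraMap K F a := by linear_combination h
    rw [h1, PlacesRam_ord_neg, Fermat.Agent.S24.ord_algebraMap] at hz
    exact lt_irrefl _ hz
  have h1 := Fermat.Agent.S24.ord_add_ge v hs ha' hz0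
  rw [Fermat.Agent.S24.ord_algebraMap] at h1
  have h2 : min (v.ord (algebraMap K F a + z)) (v.ord (-z)) ≤ v.ord (algebraMap K F a + z + -z) :=
    Fermat.Agent.S24.ord_add_ge v (by simpa using ha') hs (neg_ne_zero.2 hz0)
  rw [add_neg_cancel_right, Fermat.Agent.S24.ord_algebraMap, PlacesRam_ord_neg] at h2
  have h3 : (0 : ℤ) ≤ v.ord (algebraMap K F a + z) := le_trans (le_min le_rfl hz.le) h1
  rcases min_le_iff.1 h2 with h | h
  · omega
  · omega

end General

variable {K L : Type*} [Field K] [Field L] [Algebra ℚ K] [Algebra ℚ L] (ι : K →+* L)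
variable (F₀ : IntermediateField ℚ (LaurentSeries ℚ))

/-- **key computation.**  Let `P'` be a place of `F_L` whose restriction to `F_K` is `e · P`.
For `x = ∑ b_i • bc (g_i) ≠ 0` with the `b_i` independent over `K`, `P'.ord x = e · min_i P.ord g_i`;
in particular `e ∣ P'.ord x`.
Proof: dividing by a `g_{i₀}` of minimal order we may assume all `g_i ∈ O_P`, `g_{i₀} = 1`.
`g_i = c_i + (element of positive order)` with `c_i ∈ K`
(`deg P = 1`, `GAL.FF.deg_eq_one_of_isAlgClosed` / `S24.exists_const_of_mem`), so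
`x = ∑ b_i ι(c_i) + (positive order at P')`, and `∑ b_i ι(c_i) ≠ 0` is a nonzero constant. -/
theorem dvd_ord_of_mem_spanBC [IsAlgClosed K] [IsFF K (laurentBaseChange K F₀)]
    (P' : Place L (laurentBaseChange L F₀)) (P : Place K (laurentBaseChange K F₀)) (e : ℤ)
    (he0 : 0 < e) (he : ∀ f : laurentBaseChange K F₀, P'.ord (bc ι F₀ f) = e * P.ord f)
    {x : laurentBaseChange L F₀} (hx : x ∈ spanBC ι F₀) : e ∣ P'.ord x := by
  classical
  obtain ⟨n, b, g, hb, rfl⟩ := exists_indep_repr ι F₀ hx
  by_cases hx0 : (∑ i, b i • bc ι F₀ (g i)) = 0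
  · rw [hx0, Place.ord_zero]
    exact dvd_zero e
  have hne : (Finset.univ.filter fun i => g i ≠ 0).Nonempty := by
    by_contra h
    rw [Finset.not_nonempty_iff_eq_empty, Finset.filter_eq_empty_iff] at h
    apply hx0
    apply Finset.sum_eq_zero
    intro i _
    have := h (Finset.mem_univ i)
    push Not at this
    simp [this]
  obtain ⟨i₀, hi₀, hmin⟩ := Finset.exists_min_image _ (fun i => P.ord (g i)) hne
  have hg0 : g i₀ ≠ 0 := (Finset.mem_filter.1 hi₀).2
  set h : Fin n → laurentBaseChange K F₀ := fun i => g i / g i₀ with hh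
  have hmem : ∀ i, h i ∈ P.toValuationSubring := by
    intro i
    by_cases hgi : g i = 0
    · simp only [hh, hgi, zero_div]
      exact zero_mem _
    · apply Fermat.Agent.S24.mem_of_ord_nonneg P (div_ne_zero hgi hg0)
      rw [div_eq_mul_inv, P.ord_mul hgi (inv_ne_zero hg0), P.ord_inv]
      have := hmin i (Finset.mem_filter.2 ⟨Finset.mem_univ _, hgi⟩)
      omega
  choose c hc using fun i => PlacesRam_exists_const P (h i) (hmem i)
  have hci₀ : c i₀ ≠ 0 := by
    intro h0
    have := hc i₀
    rw [h0, map_zero, sub_zero] at this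
    have h1 : h i₀ = 1 := div_self hg0
    rw [h1] at this
    rcases this with h | h
    · exact one_ne_zero h
    · rw [P.ord_one] at h
      exact lt_irrefl _ h
  have ha : (∑ i, b i * ι (c i)) ≠ 0 := by
    intro h0
    exact hci₀ (congrFun (hb c h0) i₀)
  have hfac : ∑ i, b i • bc ι F₀ (g i) = bc ι F₀ (g i₀) *
      (algebraMap L (laurentBaseChange L F₀) (∑ i, b i * ι (c i))
        + ∑ i, b i • bc ι F₀ (h i - algebraMap K (laurentBaseChange K F₀) (c i))) := by
    rw [map_sum, ← Finset.sum_add_distrib, Finset.mul_sum]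
    refine Finset.sum_congr rfl fun i _ => ?_
    have h1 : bc ι F₀ (g i) = bc ι F₀ (g i₀) * bc ι F₀ (h i) := by
      rw [← map_mul]
      congr 1
      simp only [hh]
      field_simp
    rw [map_sub, bc_algebraMap, smul_sub, map_mul, Algebra.smul_def, Algebra.smul_def,
      Algebra.smul_def, h1]
    ring
  have hpos : PlacesRam_Pos P'
      (∑ i, b i • bc ι F₀ (h i - algebraMap K (laurentBaseChange K F₀) (c i))) := by
    apply PlacesRam_Pos.sum
    intro i _
    apply PlacesRam_Pos.smul
    rcases hc i with h1 | h1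
    · left
      rw [h1, sub_self, map_zero]
    · right
      rw [he]
      exact mul_pos he0 h1
  have hbg : bc ι F₀ (g i₀) ≠ 0 := (map_ne_zero _).2 hg0
  have hsec : algebraMap L (laurentBaseChange L F₀) (∑ i, b i * ι (c i))
        + ∑ i, b i • bc ι F₀ (h i - algebraMap K (laurentBaseChange K F₀) (c i)) ≠ 0 := by
    intro h0
    apply hx0
    rw [hfac, h0, mul_zero]
  rw [hfac, P'.ord_mul hbg hsec, PlacesRam_ord_const_add P' ha hpos, add_zero, he]
  exact dvd_mul_right _ _

/-- the ramification index is `1`: `e` divides all values of `P'.ord` (`exists_span_div`), and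
`P'.ord` takes the value `1`. -/
theorem ramification_eq_one [IsAlgClosed K] [IsFF K (laurentBaseChange K F₀)]
    (P' : Place L (laurentBaseChange L F₀)) (P : Place K (laurentBaseChange K F₀)) (e : ℤ)
    (he0 : 0 < e) (he : ∀ f : laurentBaseChange K F₀, P'.ord (bc ι F₀ f) = e * P.ord f) :
    e = 1 := by
  obtain ⟨π, hπ⟩ := IsDiscreteValuationRing.exists_irreducible P'.toValuationSubring
  have h1 : P'.ord (π : laurentBaseChange L F₀) = 1 := P'.ord_coe_irreducible hπ
  obtain ⟨A, hA, B, hB, hB0, hAB⟩ := exists_span_div ι F₀ (π : laurentBaseChange L F₀)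
  have hπ0 : (π : laurentBaseChange L F₀) ≠ 0 := by
    intro h
    rw [h, Place.ord_zero] at h1
    exact zero_ne_one h1
  have hA0 : A ≠ 0 := by
    rintro rfl
    rw [zero_div] at hAB
    exact hπ0 hAB
  have h2 : e ∣ P'.ord (π : laurentBaseChange L F₀) := by
    rw [hAB, div_eq_mul_inv, P'.ord_mul hA0 (inv_ne_zero hB0), P'.ord_inv]
    exact dvd_add (dvd_ord_of_mem_spanBC ι F₀ P' P e he0 he hA)
      ((dvd_neg).2 (dvd_ord_of_mem_spanBC ι F₀ P' P e he0 he hB))
  rw [h1] at h2
  exact Int.eq_one_of_dvd_one he0.le h2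

end Fermat.Agent.GAL.Desc
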