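import Mathlib
import Fermat.Agent.GAL.Tors.Desc.PlacesRestrict
import Fermat.Agent.GAL.Tors.Desc.PlacesRam
import Fermat.Agent.GAL.FF.Corollaries
import Fermat.Agent.GAL.FF.General

set_option autoImplicit false
set_option linter.unusedSectionVars false

/-!
# GAL-TORS / DESC, file Places: every place of `F_K` extends to `F_L` with ramification index `1`;
hence `u ∈ F_K` is a Kummer unit iff `bc u` is.
-/

noncomputable section

namespace Fermat.Agent.GAL.Desc

open AlgebraicCurve ModularCurve Fermat.Agent.Lib.RR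

variable {K L : Type*} [Field K] [Field L] [Algebra ℚ K] [Algebra ℚ L] (ι : K →+* L)
variable (F₀ : IntermediateField ℚ (LaurentSeries ℚ))

/-- abstract form of `exists_pole_only_at`. -/
theorem Places_exists_pole_only_at {k F : Type*} [Field k] [Field F] [Algebra k F] [IsAlgClosed k]
    [IsFF k F] (P : Place k F) :
    ∃ x : F, P.ord x < 0 ∧ ∀ Q : Place k F, Q ≠ P → 0 ≤ Q.ord x := by
  set D : Divisor k F := (genusFF k F + 1) • pt P with hD
  have hdeg : Divisor.degree D = genusFF k F + 1 := by
    rw [hD, map_nsmul, FF.General.General_degree_pt]; simp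
  have h1 := riemann_ineq D
  rw [ell_zero, hdeg] at h1
  have h2 : 2 ≤ ell D := by
    have : (2 : ℤ) ≤ ell D := by push_cast at h1; linarith
    exact_mod_cast this
  have hex : ∃ f ∈ riemannRochSpace D, f ∉ Set.range (algebraMap k F) := by
    by_contra hcon
    push Not at hcon
    have hle : riemannRochSpace D ≤ Submodule.span k {(1 : F)} := by
      intro f hf
      obtain ⟨a, rfl⟩ := hcon f hf
      rw [Submodule.mem_span_singleton]
      exact ⟨a, by rw [Algebra.smul_def, mul_one]⟩
    have h3 : ell D ≤ Module.finrank k (Submodule.span k {(1 : F)}) := Submodule.finrank_mono hle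
    rw [finrank_span_singleton one_ne_zero] at h3
    omega
  obtain ⟨f, hf, hfc⟩ := hex
  rw [mem_riemannRochSpace_iff] at hf
  have hQ : ∀ Q : Place k F, Q ≠ P → 0 ≤ Q.ord f := by
    intro Q hQ
    rcases hf Q with h0 | h0
    · rw [h0, Q.ord_zero]
    · have : D Q = 0 := by
        rw [hD, Finsupp.smul_apply, Finsupp.single_eq_of_ne hQ, smul_zero]
      rwa [this, neg_zero] at h0
  obtain ⟨v, hv⟩ := FF.General.exists_ord_neg hfc
  have hvP : v = P := by
    by_contra hne
    have := hQ v hne
    omega
  exact ⟨f, hvP ▸ hv, hQ⟩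

/-- there is `x ∈ F_K` whose only pole is `P` (Riemann: `ell (n • pt P) ≥ 2` for `n` large,
`Lib.RR.exists_bound`, `ell_zero`). -/
theorem exists_pole_only_at [IsAlgClosed K] [IsFF K (laurentBaseChange K F₀)]
    (P : Place K (laurentBaseChange K F₀)) :
    ∃ x : laurentBaseChange K F₀, P.ord x < 0 ∧
      ∀ Q : Place K (laurentBaseChange K F₀), Q ≠ P → 0 ≤ Q.ord x :=
  Places_exists_pole_only_at P

/-- if `bc x` is constant then so is `x`. -/
theorem Places_mem_range_of_bc_mem_range (x : laurentBaseChange K F₀)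
    (h : bc ι F₀ x ∈ Set.range (algebraMap L (laurentBaseChange L F₀))) :
    x ∈ Set.range (algebraMap K (laurentBaseChange K F₀)) := by
  obtain ⟨c, hc⟩ := h
  refine ⟨(x : LaurentSeries K).coeff 0, ?_⟩
  apply Subtype.ext
  have h1 : coeffMap ι (x : LaurentSeries K) = algebraMap L (LaurentSeries L) c := by
    rw [← coe_bc, ← hc]; rfl
  change algebraMap K (LaurentSeries K) _ = _
  rw [algebraMap_laurentSeries_eq_single]
  ext n
  rw [HahnSeries.coeff_single]
  split_ifs with hn
  · rw [hn]
  · have h2 := congrArg (fun y => HahnSeries.coeff y n) h1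
    simp only [coeffMap_coeff, algebraMap_laurentSeries_eq_single, HahnSeries.coeff_single,
      if_neg hn] at h2
    exact ((map_eq_zero ι).1 h2).symm

/-- **extension of places**: `bc x` (`x` as in `exists_pole_only_at`) is not constant, so it has a
pole `P'` (`GAL.FF.exists_ord_neg`); the restriction of `P'` is nontrivial, it is `e · Q` with
`Q.ord x < 0`, so `Q = P`; `e = 1` by `ramification_eq_one`. -/
theorem exists_place_above [IsAlgClosed K] [IsAlgClosed L] [IsFF K (laurentBaseChange K F₀)]
    [IsFF L (laurentBaseChange L F₀)] (P : Place K (laurentBaseChange K F₀)) :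
    ∃ P' : Place L (laurentBaseChange L F₀),
      ∀ f : laurentBaseChange K F₀, P'.ord (bc ι F₀ f) = P.ord f := by
  obtain ⟨x, hx, hxQ⟩ := exists_pole_only_at F₀ P
  have hnc : bc ι F₀ x ∉ Set.range (algebraMap L (laurentBaseChange L F₀)) := by
    intro h
    obtain ⟨a, rfl⟩ := Places_mem_range_of_bc_mem_range ι F₀ x h
    rw [Basic_ord_algebraMap] at hx
    omega
  obtain ⟨P', hP'⟩ := FF.General.exists_ord_neg hnc
  refine ⟨P', ?_⟩
  rcases exists_place_comap ι F₀ P' with h0 | ⟨Q, e, he0, he⟩
  · rw [h0] at hP'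
    omega
  · have hQ : Q = P := by
      by_contra hne
      have h1 := hxQ Q hne
      rw [he] at hP'
      have := mul_nonneg he0.le h1
      omega
    subst hQ
    have he1 := ramification_eq_one ι F₀ P' Q e he0 he
    intro f
    rw [he, he1, one_mul]

/-- base change reflects Kummer units. -/
theorem mem_kummerUnits_of_bc [IsAlgClosed K] [IsAlgClosed L] [IsFF K (laurentBaseChange K F₀)]
    [IsFF L (laurentBaseChange L F₀)] (m : ℕ) (u : (laurentBaseChange K F₀)ˣ)
    (hu : Units.map (bc ι F₀ : laurentBaseChange K F₀ →* laurentBaseChange L F₀) u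
      ∈ kummerUnits L (laurentBaseChange L F₀) m) :
    u ∈ kummerUnits K (laurentBaseChange K F₀) m := by
  intro P
  obtain ⟨P', hP'⟩ := exists_place_above ι F₀ P
  rw [← hP']
  exact hu P'

end Fermat.Agent.GAL.Desc
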