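import Mathlib
import Fermat.Agent.GAL.Tors.Desc.BaseChange
import Fermat.Agent.GAL.Tors.Desc.Orbit
import Fermat.Agent.GAL.Tors.Desc.Places
import Fermat.Agent.GAL.Tors.Desc.Canonical
import Fermat.Agent.GAL.Tors.Desc.IsFF

set_option autoImplicit false
set_option linter.unusedSectionVars false

/-!
# GAL-TORS / DESC: descent of the Kummer model from `L` (e.g. `ℂ`) to `K = ℚ̄`

`KV K F_K m → KV L F_L m` is bijective, provided `KV L F_L m` is finite.
-/

noncomputable section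

namespace Fermat.Agent.GAL.Desc

open AlgebraicCurve ModularCurve Fermat.Agent.Lib.RR

variable {K L : Type*} [Field K] [Field L] [Algebra ℚ K] [Algebra ℚ L] (ι : K →+* L)
variable (F₀ : IntermediateField ℚ (LaurentSeries ℚ))

/-- Base change on the Kummer models. -/
def bcKV (m : ℕ) : KV K (laurentBaseChange K F₀) m →+ KV L (laurentBaseChange L F₀) m :=
  KV.map (Units.map (bc ι F₀ : laurentBaseChange K F₀ →* laurentBaseChange L F₀))
    (bc_mem_kummerUnits ι F₀ m)

theorem bcKV_mk (m : ℕ) (u : kummerUnits K (laurentBaseChange K F₀) m) :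
    bcKV ι F₀ m (KV.mk u) =
      KV.mk ⟨Units.map (bc ι F₀ : laurentBaseChange K F₀ →* laurentBaseChange L F₀) u,
        bc_mem_kummerUnits ι F₀ m u u.2⟩ :=
  KV.map_mk _ _ u

theorem bcKV_injective [IsAlgClosed K] [IsAlgClosed L] [Algebra.IsAlgebraic ℚ K] {m : ℕ}
    (hm : m ≠ 0) : Function.Injective (bcKV ι F₀ m) := by
  rw [injective_iff_map_eq_zero]
  intro x hx
  obtain ⟨u, rfl⟩ := KV.mk_surjective x
  rw [bcKV_mk, KV.mk_eq_zero_iff] at hx
  obtain ⟨y, hy⟩ := hx
  have hy' : (y : laurentBaseChange L F₀) ^ m = bc ι F₀ ((u : (laurentBaseChange K F₀)ˣ) :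
      laurentBaseChange K F₀) := by
    have := congrArg (fun z : (laurentBaseChange L F₀)ˣ => (z : laurentBaseChange L F₀)) hy
    simpa using this
  have hfo : FinOrb F₀ (y : laurentBaseChange L F₀) := by
    apply FinOrb.of_pow hm
    rw [hy']
    exact finOrb_bc ι F₀ _
  obtain ⟨y₀, hy₀⟩ := hfo.mem_range_bc ι
  have hy₀m : y₀ ^ m = ((u : (laurentBaseChange K F₀)ˣ) : laurentBaseChange K F₀) := by
    apply bc_injective ι F₀
    rw [map_pow, hy₀, hy']
  have hy₀0 : y₀ ≠ 0 := by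
    rintro rfl
    rw [zero_pow hm] at hy₀m
    exact (u : (laurentBaseChange K F₀)ˣ).ne_zero hy₀m.symm
  rw [KV.mk_eq_zero_iff]
  exact ⟨Units.mk0 y₀ hy₀0, Units.ext (by simpa using hy₀m)⟩

theorem bcKV_surjective [IsAlgClosed K] [IsAlgClosed L] [IsFF K (laurentBaseChange K F₀)]
    [IsFF L (laurentBaseChange L F₀)] {m : ℕ} (hm : m ≠ 0)
    (x₀ : laurentBaseChange L F₀) (hx₀ : (x₀ : LaurentSeries L).order ≠ 0)
    (hfin : Finite (KV L (laurentBaseChange L F₀) m)) : Function.Surjective (bcKV ι F₀ m) := by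
  intro c
  obtain ⟨u, rfl⟩ := KV.mk_surjective c
  obtain ⟨g, hg⟩ := exists_canonical hm x₀ hx₀ u
  set w : laurentBaseChange L F₀ := (((u : (laurentBaseChange L F₀)ˣ)) : laurentBaseChange L F₀)
            * (g : laurentBaseChange L F₀) ^ m with hw
  -- the orbit of `w` is finite
  have hkey : ∀ σ τ : L ≃ₐ[ℚ] L, σ • KV.mk u = τ • KV.mk u →
      arithmeticGalois F₀ σ • w = arithmeticGalois F₀ τ • w := by
    intro σ τ h
    have h1 : (τ⁻¹ * σ) • KV.mk u = KV.mk u := by
      rw [mul_smul, h, inv_smul_smul]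
    have h2 := hg _ h1
    rw [map_mul, mul_smul, map_inv, inv_smul_eq_iff] at h2
    exact h2
  have hfo : FinOrb F₀ w := by
    classical
    let S : Set (KV L (laurentBaseChange L F₀) m) := Set.range fun σ : L ≃ₐ[ℚ] L => σ • KV.mk u
    have hS : S.Finite := Set.toFinite S
    let pick : KV L (laurentBaseChange L F₀) m → laurentBaseChange L F₀ := fun c =>
      if h : ∃ σ : L ≃ₐ[ℚ] L, σ • KV.mk u = c then arithmeticGalois F₀ h.choose • w else 0
    refine (hS.image pick).subset ?_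
    rintro _ ⟨σ, rfl⟩
    refine ⟨σ • KV.mk u, ⟨σ, rfl⟩, ?_⟩
    have hex : ∃ σ' : L ≃ₐ[ℚ] L, σ' • KV.mk u = σ • KV.mk u := ⟨σ, rfl⟩
    simp only [pick, dif_pos hex]
    exact hkey _ _ hex.choose_spec
  obtain ⟨v, hv⟩ := hfo.mem_range_bc ι
  have hw0 : w ≠ 0 := mul_ne_zero (Units.ne_zero _) (pow_ne_zero _ (Units.ne_zero _))
  have hv0 : v ≠ 0 := by
    rintro rfl
    rw [map_zero] at hv
    exact hw0 hv.symm
  have hunit : Units.map (bc ι F₀ : laurentBaseChange K F₀ →* laurentBaseChange L F₀)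
      (Units.mk0 v hv0) = (u : (laurentBaseChange L F₀)ˣ) * g ^ m := by
    apply Units.ext
    simpa [hw] using hv
  have hvk : Units.mk0 v hv0 ∈ kummerUnits K (laurentBaseChange K F₀) m := by
    apply mem_kummerUnits_of_bc ι F₀ m
    rw [hunit]
    exact mul_mem u.2 (pow_mem_kummerUnits m g)
  refine ⟨KV.mk ⟨Units.mk0 v hv0, hvk⟩, ?_⟩
  rw [bcKV_mk, KV.mk_eq_mk_iff]
  refine ⟨g, ?_⟩
  show g ^ m * (u : (laurentBaseChange L F₀)ˣ) = Units.map _ (Units.mk0 v hv0)
  rw [hunit, mul_comm]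

theorem bcKV_bijective [IsAlgClosed K] [IsAlgClosed L] [Algebra.IsAlgebraic ℚ K]
    [IsFF K (laurentBaseChange K F₀)] [IsFF L (laurentBaseChange L F₀)] {m : ℕ} (hm : m ≠ 0)
    (x₀ : laurentBaseChange L F₀) (hx₀ : (x₀ : LaurentSeries L).order ≠ 0)
    (hfin : Finite (KV L (laurentBaseChange L F₀) m)) : Function.Bijective (bcKV ι F₀ m) :=
  ⟨bcKV_injective ι F₀ hm, bcKV_surjective ι F₀ hm x₀ hx₀ hfin⟩

open Fermat.Agent.S24 in
/-- **DESC for the modular function fields.** -/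
theorem bcKV_bijective_modular (N : ℕ) [NeZero N] {m : ℕ}
    (hm : m ≠ 0) (hfin : Finite (KV ℂ (FF ℂ N) m)) :
    Function.Bijective (bcKV iota (modularFunctionFieldFull N) m) := by
  have h1 := isFF_FF_Kbar N
  have h2 := isFF_FF_Complex N
  have h3 : Algebra.IsAlgebraic ℚ Kbar := AlgebraicClosure.isAlgebraic ℚ
  refine bcKV_bijective iota _ hm (bc iota _ (jF N)) ?_ hfin
  have hcoe : ((bc iota (modularFunctionFieldFull N) (jF N) : FF ℂ N) : LaurentSeries ℂ)
      = coeffEmb ℂ jq := by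
    rw [coe_bc]
    exact coeffMap_coeffEmb_hom iota jq
  have h4 : (coeffEmb ℂ jq).order = -1 := by
    apply Fermat.Agent.S24.EmbedPoint.order_eq_of_coeff
    · rw [coeffEmb_coeff]
      have := coeff_jq_pow_self 1
      rw [pow_one] at this
      simp only [Nat.cast_one] at this
      rw [this]
      simp
    · intro k hk
      rw [coeffEmb_coeff]
      have := coeff_jq_pow_of_lt (n := 1) (m := k) (by simpa using hk)
      rw [pow_one] at this
      rw [this]
      simp
  rw [hcoe, h4]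
  norm_num

end Fermat.Agent.GAL.Desc
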