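import Mathlib
import Fermat.Agent.Lib.IS.FixedField

set_option autoImplicit false

/-!
# GAL-TORS / DESC, leaf DS3: a complex number with finite `Aut(ℂ/ℚ)`-orbit is algebraic

If `z` is transcendental there is `σ` with `σ z = 2 z` (proof of
`Lib.IS.exists_ringEquiv_ne_of_transcendental`), so `σ^n z = 2^n z` are pairwise distinct.
-/

namespace Fermat.Agent.GAL.Tors.Desc

open MvPolynomial in
/-- A transcendental element of an algebraically closed field of characteristic zero can be doubled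
by a field automorphism. -/
theorem exists_ringEquiv_two_mul_of_transcendental {K : Type*} [Field K] [IsAlgClosed K]
    [CharZero K] {x : K} (hx : Transcendental ℚ x) : ∃ σ : K ≃+* K, σ x = 2 * x := by
  have hs : AlgebraicIndepOn ℚ id ({x} : Set K) :=
    (algebraicIndependent_singleton_iff (⟨x, rfl⟩ : ({x} : Set K))).mpr hx
  obtain ⟨t, hst, hv⟩ := exists_isTranscendenceBasis_superset hs
  let _ := IsAlgClosed.isAlgClosure_of_transcendence_basis _ hv
  let i₀ : t := ⟨x, hst rfl⟩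
  let φ : MvPolynomial t ℚ ≃ₐ[ℚ] MvPolynomial t ℚ :=
    AlgEquiv.ofAlgHom (aeval fun i => C (2 : ℚ) * X i) (aeval fun i => C (1 / 2 : ℚ) * X i)
      (by
        ext i
        simp only [AlgHom.coe_comp, Function.comp_apply, aeval_X, map_mul, AlgHom.coe_id, id_eq,
          algHom_C, algebraMap_eq]
        rw [← mul_assoc, ← C_mul]
        norm_num)
      (by
        ext i
        simp only [AlgHom.coe_comp, Function.comp_apply, aeval_X, map_mul, AlgHom.coe_id, id_eq,
          algHom_C, algebraMap_eq]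
        rw [← mul_assoc, ← C_mul]
        norm_num)
  let e : Algebra.adjoin ℚ (Set.range ((↑) : t → K)) ≃+* Algebra.adjoin ℚ (Set.range ((↑) : t → K)) :=
    (hv.1.aevalEquiv.symm.toRingEquiv.trans φ.toRingEquiv).trans hv.1.aevalEquiv.toRingEquiv
  refine ⟨IsAlgClosure.equivOfEquiv K K e, ?_⟩
  have h1 : x = algebraMap (Algebra.adjoin ℚ (Set.range ((↑) : t → K))) K
      (hv.1.aevalEquiv (X i₀)) := by
    rw [AlgebraicIndependent.algebraMap_aevalEquiv, aeval_X]
  conv_lhs => rw [h1]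
  rw [IsAlgClosure.equivOfEquiv_algebraMap]
  simp only [e, RingEquiv.trans_apply, AlgEquiv.coe_ringEquiv, AlgEquiv.symm_apply_apply]
  rw [AlgebraicIndependent.algebraMap_aevalEquiv]
  simp [φ, i₀]

theorem isAlgebraic_of_finite_orbit (z : ℂ)
    (h : (Set.range fun σ : ℂ ≃ₐ[ℚ] ℂ => σ z).Finite) : IsAlgebraic ℚ z := by
  by_contra hz
  obtain ⟨σ₀, hσ₀⟩ := exists_ringEquiv_two_mul_of_transcendental (K := ℂ) (x := z) hz
  let σ : ℂ ≃ₐ[ℚ] ℂ := AlgEquiv.ofRingEquiv (f := σ₀) (fun q => by simp)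
  have hσ : σ z = 2 * z := hσ₀
  have hz0 : z ≠ 0 := by
    rintro rfl
    exact hz isAlgebraic_zero
  have hpow : ∀ n : ℕ, (σ ^ n) z = 2 ^ n * z := by
    intro n
    induction n with
    | zero => simp
    | succ n ih =>
      rw [pow_succ', AlgEquiv.mul_apply, ih, map_mul, map_pow, hσ, map_ofNat]
      ring
  have hinj : Function.Injective fun n : ℕ => (2 : ℂ) ^ n * z := by
    intro a b hab
    have h2 : (2 : ℂ) ^ a = 2 ^ b := mul_right_cancel₀ hz0 hab
    have h3 : (2 : ℕ) ^ a = 2 ^ b := by exact_mod_cast h2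
    exact Nat.pow_right_injective le_rfl h3
  refine Set.infinite_of_injective_forall_mem hinj (s := Set.range fun σ : ℂ ≃ₐ[ℚ] ℂ => σ z)
    (fun n => ⟨σ ^ n, hpow n⟩) h

/-- Version with a finite index subgroup fixing `z`. -/
theorem isAlgebraic_of_fixed_by_finiteIndex (z : ℂ) (H : Subgroup (ℂ ≃ₐ[ℚ] ℂ)) [H.FiniteIndex]
    (h : ∀ σ ∈ H, σ z = z) : IsAlgebraic ℚ z := by
  apply isAlgebraic_of_finite_orbit
  have : Finite ((ℂ ≃ₐ[ℚ] ℂ) ⧸ H) := Subgroup.finite_quotient_of_finiteIndex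
  let f : (ℂ ≃ₐ[ℚ] ℂ) ⧸ H → ℂ := fun q => Quotient.liftOn' q (fun σ => σ z) (by
    intro a b hab
    have hab' : a⁻¹ * b ∈ H := QuotientGroup.leftRel_apply.mp hab
    have h1 := h _ hab'
    rw [AlgEquiv.mul_apply] at h1
    have h2 : a (a⁻¹ (b z)) = a z := by rw [h1]
    rw [← AlgEquiv.mul_apply, mul_inv_cancel, AlgEquiv.one_apply] at h2
    exact h2.symm)
  refine (Set.finite_range f).subset ?_
  rintro _ ⟨σ, rfl⟩
  exact ⟨QuotientGroup.mk σ, rfl⟩

end Fermat.Agent.GAL.Tors.Desc
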